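import Fermat.Agent.Schanuel.Profile
import Mathlib.NumberTheory.NumberField.CanonicalEmbedding.ConvexBody
import Mathlib.Algebra.Module.ZLattice.Covolume
import Mathlib.NumberTheory.NumberField.Discriminant.Basic

/-!
# Lattice points of Schanuel's region

Tuples with entries in a nonzero integral ideal `J` whose profile lies in the fundamental cone
with norm at most `T`: their number is asymptotic to the volume over the covolume, and is
bounded, uniformly in `J`, by a multiple of `(T / N J) ^ N`.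
-/

set_option autoImplicit false
set_option linter.unusedSectionVars false

noncomputable section

open NumberField NumberField.InfinitePlace NumberField.mixedEmbedding MeasureTheory Filter
open NumberField.mixedEmbedding.fundamentalCone Module Bornology
open scoped NNReal ENNReal Topology Classical nonZeroDivisors

namespace FA.Schanuel

variable {K : Type*} [Field K] [NumberField K] {ι : Type*} [Fintype ι] [Nonempty ι]

instance borelSpace_mixedSpace : BorelSpace (mixedSpace K) := inferInstance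

instance borelSpace_tupleSpace : BorelSpace (ι → mixedSpace K) := inferInstance

instance isAddHaarMeasure_tupleSpace :
    (volume : Measure (ι → mixedSpace K)).IsAddHaarMeasure := by
  rw [volume_pi]
  have : SigmaFinite (volume : Measure (mixedSpace K)) := inferInstance
  have : ∀ _i : ι, (volume : Measure (mixedSpace K)).IsAddHaarMeasure := fun _ => inferInstance
  exact Measure.pi.isAddHaarMeasure (fun _ : ι => (volume : Measure (mixedSpace K)))

/-- The embedding of a tuple of integers. -/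
def intTuple (x : ι → 𝓞 K) : ι → mixedSpace K := fun i => mixedEmbedding K (x i : K)

theorem intTuple_injective : Function.Injective (intTuple : (ι → 𝓞 K) → ι → mixedSpace K) :=
  fun _ _ h => funext fun i =>
    RingOfIntegers.ext (mixedEmbedding_injective K (congrFun h i))

/-- Tuples in `J` lying in the region. -/
def tuples (ι : Type*) [Fintype ι] [Nonempty ι] (J : Ideal (𝓞 K)) (T : ℝ) : Set (ι → 𝓞 K) :=
  {x | (∀ i, x i ∈ J) ∧ intTuple x ∈ region T}

theorem mixedEmbedding_norm_le_norm_pow (z : mixedSpace K) :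
    mixedEmbedding.norm z ≤ ‖z‖ ^ finrank ℚ K := by
  rw [mixedEmbedding.norm_apply, ← InfinitePlace.sum_mult_eq, ← Finset.prod_pow_eq_pow_sum]
  refine Finset.prod_le_prod (fun w _ => pow_nonneg (normAtPlace_nonneg w z) _) fun w hw => ?_
  refine pow_le_pow_left₀ (normAtPlace_nonneg w z) ?_ _
  rw [norm_eq_sup'_normAtPlace]
  exact Finset.le_sup' (fun w => normAtPlace w z) hw

theorem absNorm_le_norm_pow {J : Ideal (𝓞 K)} {a : 𝓞 K} (ha : a ∈ J) (ha0 : a ≠ 0) :
    (Ideal.absNorm J : ℝ) ≤ ‖mixedEmbedding K (a : K)‖ ^ finrank ℚ K := by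
  refine le_trans ?_ (mixedEmbedding_norm_le_norm_pow _)
  rw [mixedEmbedding.norm_eq_norm, show ((|Algebra.norm ℚ (a : K)| : ℚ) : ℝ) =
    (((Algebra.norm ℤ a).natAbs : ℕ) : ℝ) by rw [← Algebra.coe_norm_int]; simp [Nat.cast_natAbs]]
  exact_mod_cast Nat.le_of_dvd
    (Int.natAbs_pos.mpr (Algebra.norm_ne_zero_iff.mpr ha0))
    (Ideal.absNorm_span_singleton a ▸
      Ideal.absNorm_dvd_absNorm_of_le ((Ideal.span_singleton_le_iff_mem _).mpr ha))

theorem norm_smul_profile {c : ℝ} (hc : 0 ≤ c) (v : ι → mixedSpace K) :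
    mixedEmbedding.norm (profile (c • v)) =
      c ^ finrank ℚ K * mixedEmbedding.norm (profile v) := by
  rw [profile_smul, mixedEmbedding.norm_smul, abs_abs, abs_of_nonneg hc]

theorem pos_of_mem_region {T : ℝ} {v : ι → mixedSpace K} (hv : v ∈ region T) : 0 < T :=
  (norm_pos_of_mem hv.1).trans_le hv.2

theorem profile_zero : profile (0 : ι → mixedSpace K) = 0 := by
  have h := profile_smul 0 (0 : ι → mixedSpace K)
  simpa using h

theorem ne_zero_of_mem_region {T : ℝ} {v : ι → mixedSpace K} (hv : v ∈ region T) : v ≠ 0 := by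
  intro h
  exact hv.1.2 (by simp [h, profile_zero])

variable (K ι) in
theorem exists_norm_le_of_mem_region :
    ∃ C : ℝ, 0 < C ∧ ∀ (T : ℝ), ∀ v ∈ (region T : Set (ι → mixedSpace K)),
      ‖v‖ ≤ C * T ^ ((finrank ℚ K : ℝ)⁻¹) := by
  obtain ⟨C, hC0, hC⟩ := exists_norm_le_of_mem_normLeOne K
  refine ⟨C, hC0, fun T v hv => ?_⟩
  have hT : 0 < T := pos_of_mem_region hv
  set c : ℝ := T ^ ((finrank ℚ K : ℝ)⁻¹) with hc
  have hc0 : 0 < c := Real.rpow_pos_of_pos hT _
  have h1 : profile (c⁻¹ • v) ∈ normLeOne K := by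
    refine ⟨?_, ?_⟩
    · rw [profile_smul]
      exact smul_mem_of_mem hv.1 (abs_ne_zero.mpr (inv_ne_zero hc0.ne'))
    · rw [Set.mem_ofPred_eq, norm_smul_profile (inv_nonneg.mpr hc0.le), inv_pow, hc,
        Real.rpow_inv_natCast_pow hT.le finrank_pos.ne', inv_mul_le_iff₀ hT, mul_one]
      exact hv.2
  have h2 := (norm_le_norm_profile (c⁻¹ • v)).trans (hC _ h1)
  rw [_root_.norm_smul, norm_inv, Real.norm_of_nonneg hc0.le, inv_mul_le_iff₀ hc0] at h2
  linarith

variable (K ι) in
theorem exists_tuples_bound :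
    ∃ κ : ℝ, 0 ≤ κ ∧ ∀ (J : Ideal (𝓞 K)), J ≠ ⊥ → ∀ T : ℝ,
      (tuples ι J T).Finite ∧
        (0 ≤ T → ((tuples ι J T).ncard : ℝ) ≤ κ * (T / Ideal.absNorm J) ^ Fintype.card ι) := by
  obtain ⟨C, hC0, hC⟩ := exists_norm_le_of_mem_region K ι
  refine ⟨((3 * C) ^ finrank ℚ K) ^ Fintype.card ι, by positivity, fun J hJ T => ?_⟩
  set d : ℕ := finrank ℚ K with hd
  set N : ℕ := Fintype.card ι with hN
  have hd0 : d ≠ 0 := finrank_pos.ne'
  have hnJ : (0 : ℝ) < Ideal.absNorm J :=
    Nat.cast_pos.mpr (Nat.pos_of_ne_zero fun h => hJ (Ideal.absNorm_eq_zero_iff.mp h))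
  rcases le_or_gt T 0 with hT | hT
  · have : tuples ι J T = ∅ := Set.eq_empty_of_forall_notMem fun x hx =>
      (pos_of_mem_region hx.2).not_ge hT
    exact this ▸ ⟨Set.finite_empty,
      fun h => by simp only [Set.ncard_empty, Nat.cast_zero]; positivity⟩
  set δ : ℝ := (Ideal.absNorm J : ℝ) ^ ((d : ℝ)⁻¹) with hδ
  set R : ℝ := C * T ^ ((d : ℝ)⁻¹) with hR
  have hδ0 : 0 < δ := Real.rpow_pos_of_pos hnJ _
  have hR0 : 0 < R := mul_pos hC0 (Real.rpow_pos_of_pos hT _)
  have hsep : ∀ a ∈ J, a ≠ 0 → δ ≤ ‖mixedEmbedding K (a : K)‖ := fun a ha ha0 => by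
    have h := Real.rpow_le_rpow hnJ.le (absNorm_le_norm_pow ha ha0)
      (inv_nonneg.mpr (Nat.cast_nonneg d))
    rwa [Real.pow_rpow_inv_natCast (norm_nonneg _) hd0] at h
  have key : ∀ s : Finset (ι → 𝓞 K), (s : Set (ι → 𝓞 K)) ⊆ tuples ι J T →
      (s.card : ℝ) ≤ ((3 * C) ^ d) ^ N * (T / Ideal.absNorm J) ^ N := by
    intro s hs
    rcases s.eq_empty_or_nonempty with rfl | ⟨x₀, hx₀⟩
    · simp; positivity
    have hδR : δ ≤ R := by
      obtain ⟨i, hi⟩ : ∃ i, x₀ i ≠ 0 := by
        by_contra h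
        push Not at h
        exact ne_zero_of_mem_region (hs hx₀).2 (funext fun i => by simp [intTuple, h i])
      exact (hsep _ ((hs hx₀).1 i) hi).trans
        ((norm_le_pi_norm (intTuple x₀) i).trans (hC T _ (hs hx₀).2))
    have hdisj : (s : Set (ι → 𝓞 K)).PairwiseDisjoint
        fun x => Metric.ball (intTuple x) (δ / 2) := by
      intro x hx y hy hxy
      refine Metric.ball_disjoint_ball ?_
      obtain ⟨i, hi⟩ := Function.ne_iff.mp hxy
      rw [add_halves, dist_eq_norm]
      refine (hsep (x i - y i) (J.sub_mem ((hs hx).1 i) ((hs hy).1 i))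
        (sub_ne_zero.mpr hi)).trans ?_
      refine le_trans (le_of_eq ?_) (norm_le_pi_norm (intTuple x - intTuple y) i)
      simp [intTuple]
    have hsub : ⋃ x ∈ s, Metric.ball (intTuple x) (δ / 2) ⊆
        Metric.ball (0 : ι → mixedSpace K) (3 * R / 2) := by
      refine Set.iUnion₂_subset fun x hx y hy => ?_
      rw [Metric.mem_ball, dist_zero_right]
      rw [Metric.mem_ball, dist_eq_norm] at hy
      have := hC T _ (hs hx).2
      have := norm_le_norm_sub_add y (intTuple x)
      linarith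
    have hμ := measure_mono (μ := (volume : Measure (ι → mixedSpace K))) hsub
    rw [measure_biUnion_finset hdisj fun x _ => measurableSet_ball] at hμ
    simp only [Measure.addHaar_ball _ _ (show 0 ≤ δ / 2 by positivity),
      Measure.addHaar_ball _ _ (show 0 ≤ 3 * R / 2 by positivity), Finset.sum_const,
      nsmul_eq_mul, ← mul_assoc, ← ENNReal.ofReal_natCast, ← ENNReal.ofReal_mul (Nat.cast_nonneg _)]
      at hμ
    rw [ENNReal.mul_le_mul_iff_left (Metric.measure_ball_pos _ _ one_pos).ne'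
      measure_ball_lt_top.ne, ENNReal.ofReal_le_ofReal_iff (by positivity)] at hμ
    have hdim : finrank ℝ (ι → mixedSpace K) = d * N := by
      rw [Module.finrank_pi_fintype, Finset.sum_const, Finset.card_univ, smul_eq_mul,
        mixedEmbedding.finrank, mul_comm]
    rw [hdim, pow_mul, pow_mul, ← le_div_iff₀ (by positivity), ← div_pow, ← div_pow] at hμ
    refine hμ.trans (le_of_eq ?_)
    rw [← mul_pow]
    congr 1
    rw [show 3 * R / 2 / (δ / 2) = 3 * C * (T ^ ((d : ℝ)⁻¹) / δ) by rw [hR]; field_simp,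
      mul_pow, div_pow, hδ, Real.rpow_inv_natCast_pow hT.le hd0,
      Real.rpow_inv_natCast_pow hnJ.le hd0]
  have hfin : (tuples ι J T).Finite := by
    by_contra hinf
    obtain ⟨s, hs, hc⟩ := Set.Infinite.exists_subset_card_eq hinf
      (⌊((3 * C) ^ d) ^ N * (T / Ideal.absNorm J) ^ N⌋₊ + 1)
    have h := key s hs
    rw [hc] at h
    push_cast at h
    linarith [Nat.lt_floor_add_one (((3 * C) ^ d) ^ N * (T / Ideal.absNorm J) ^ N)]
  exact ⟨hfin, fun _ => by
    rw [Set.ncard_eq_toFinset_card _ hfin]; exact key _ (by simp)⟩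

theorem finite_tuples {J : Ideal (𝓞 K)} (hJ : J ≠ ⊥) (T : ℝ) : (tuples ι J T).Finite := by
  obtain ⟨κ, -, h⟩ := exists_tuples_bound K ι
  exact (h J hJ T).1

/-- The image of a set by the coordinates of a basis. -/
theorem volume_equivFun_image_mul {E κ : Type*} [NormedAddCommGroup E] [NormedSpace ℝ E]
    [FiniteDimensional ℝ E] [MeasurableSpace E] [BorelSpace E] [Fintype κ] (μ : Measure E)
    [μ.IsAddHaarMeasure] (b : Basis κ ℝ E) (s : Set E) :
    volume (b.equivFun '' s) * μ (ZSpan.fundamentalDomain b) = μ s := by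
  set e : E ≃L[ℝ] (κ → ℝ) := b.equivFunL
  set ν : Measure E := (volume : Measure (κ → ℝ)).map e.symm with hν
  have happ : ∀ t : Set E, ν t = volume (b.equivFun '' t) := fun t => by
    rw [hν, show (e.symm : (κ → ℝ) → E) = e.symm.toHomeomorph.toMeasurableEquiv from rfl,
      MeasurableEquiv.map_apply]
    congr 1
    exact (b.equivFun.toEquiv.image_eq_preimage_symm t).symm
  have hν' : ν = Measure.addHaarScalarFactor ν μ • μ := Measure.isAddLeftInvariant_eq_smul ν μ
  have hbox : b.equivFun '' ZSpan.fundamentalDomain b = Set.univ.pi fun _ => Set.Ico (0 : ℝ) 1 := by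
    ext y
    refine ⟨?_, fun hy => ⟨b.equivFun.symm y, ?_, LinearEquiv.apply_symm_apply _ _⟩⟩
    · rintro ⟨v, hv, rfl⟩ i -
      exact (ZSpan.mem_fundamentalDomain b).mp hv i
    · refine (ZSpan.mem_fundamentalDomain b).mpr fun i => ?_
      rw [← b.equivFun_apply, LinearEquiv.apply_symm_apply]
      exact hy i (Set.mem_univ i)
  have h1 := happ (ZSpan.fundamentalDomain b)
  rw [hbox, volume_pi_pi, hν', Measure.smul_apply] at h1
  simp only [Real.volume_Ico, sub_zero, ENNReal.ofReal_one, Finset.prod_const_one] at h1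
  rw [← happ, hν', Measure.smul_apply, ENNReal.smul_def, smul_eq_mul, mul_right_comm]
  rw [ENNReal.smul_def, smul_eq_mul] at h1
  rw [h1, one_mul]

/-- A nonzero integral ideal as an invertible fractional ideal. -/
abbrev fracIdeal (J : (Ideal (𝓞 K))⁰) : (FractionalIdeal (𝓞 K)⁰ K)ˣ := FractionalIdeal.mk0 K J

variable (ι) in
/-- The real basis of the tuple space attached to an ideal. -/
def tupleBasis (J : (Ideal (𝓞 K))⁰) :
    Basis (Σ _ : ι, Free.ChooseBasisIndex ℤ (fracIdeal J)) ℝ (ι → mixedSpace K) :=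
  Pi.basis fun _ => fractionalIdealLatticeBasis K (fracIdeal J)

theorem mem_span_tupleBasis_iff (J : (Ideal (𝓞 K))⁰) (v : ι → mixedSpace K) :
    v ∈ Submodule.span ℤ (Set.range (tupleBasis ι J)) ↔
      ∃ x : ι → 𝓞 K, (∀ i, x i ∈ (J : Ideal (𝓞 K))) ∧ intTuple x = v := by
  have h : v ∈ Submodule.span ℤ (Set.range (tupleBasis ι J)) ↔
      ∀ i, v i ∈ mixedEmbedding K '' ((fracIdeal J : FractionalIdeal (𝓞 K)⁰ K) : Set K) := by
    simp only [← mem_span_fractionalIdealLatticeBasis, Basis.mem_span_iff_repr_mem, tupleBasis,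
      Pi.basis_repr, Sigma.forall]
  rw [h]
  refine ⟨fun h => ?_, ?_⟩
  · choose y hy hyv using h
    have hy' : ∀ i, ∃ a ∈ (J : Ideal (𝓞 K)), algebraMap (𝓞 K) K a = y i := fun i => by
      simpa [FractionalIdeal.mem_coeIdeal] using hy i
    choose x hxJ hx using hy'
    exact ⟨x, hxJ, funext fun i => by rw [← hyv i, ← hx i]; rfl⟩
  · rintro ⟨x, hxJ, rfl⟩ i
    exact ⟨(x i : K), (FractionalIdeal.mem_coeIdeal _).mpr ⟨x i, hxJ i, rfl⟩, rfl⟩

variable (K) in
/-- The covolume of the ring of integers. -/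
def integerCovolume : ℝ := (2 : ℝ)⁻¹ ^ nrComplexPlaces K * Real.sqrt |(discr K : ℝ)|

theorem integerCovolume_pos : 0 < integerCovolume K := by
  rw [integerCovolume]
  have : (0 : ℝ) < |(discr K : ℝ)| := abs_pos.mpr (Int.cast_ne_zero.mpr (discr_ne_zero K))
  positivity

theorem volume_fundamentalDomain_tupleBasis (J : (Ideal (𝓞 K))⁰) :
    volume (ZSpan.fundamentalDomain (tupleBasis ι J)) =
      ENNReal.ofReal ((Ideal.absNorm (J : Ideal (𝓞 K)) * integerCovolume K) ^ Fintype.card ι) := by
  have hpi : ZSpan.fundamentalDomain (tupleBasis ι J) = Set.univ.pi fun _ : ι =>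
      ZSpan.fundamentalDomain (fractionalIdealLatticeBasis K (fracIdeal J)) := by
    ext v
    simp only [ZSpan.mem_fundamentalDomain, tupleBasis, Pi.basis_repr, Sigma.forall, Set.mem_pi,
      Set.mem_univ, forall_true_left]
  rw [hpi, volume_pi_pi, Finset.prod_const, Finset.card_univ,
    volume_fundamentalDomain_fractionalIdealLatticeBasis, volume_fundamentalDomain_latticeBasis,
    ENNReal.ofReal_pow (mul_nonneg (Nat.cast_nonneg _) integerCovolume_pos.le)]
  congr 1
  rw [ENNReal.ofReal_mul (Nat.cast_nonneg _), integerCovolume,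
    ENNReal.ofReal_mul (by positivity), ENNReal.ofReal_pow (by positivity),
    ENNReal.ofReal_inv_of_pos two_pos, ENNReal.ofReal_ofNat]
  congr 1
  · simp [FractionalIdeal.coeIdeal_absNorm]
  congr 1
  rw [← ENNReal.ofReal_coe_nnreal, Real.coe_sqrt, coe_nnnorm, Int.norm_eq_abs]

variable (ι K) in
/-- The volume constant of Schanuel's theorem. -/
def schanuelVolume : ℝ :=
  ((2 : ℝ) ^ nrRealPlaces K * (2 * Real.pi) ^ nrComplexPlaces K / Real.sqrt |(discr K : ℝ)|) ^
      Fintype.card ι * (Fintype.card ι : ℝ) ^ Units.rank K * Units.regulator K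

theorem card_sigma_index (J : (Ideal (𝓞 K))⁰) :
    Fintype.card (Σ _ : ι, Free.ChooseBasisIndex ℤ (fracIdeal J)) =
      finrank ℚ K * Fintype.card ι := by
  rw [Fintype.card_sigma, Finset.sum_const, Finset.card_univ, smul_eq_mul,
    ← finrank_eq_card_chooseBasisIndex, fractionalIdeal_rank, RingOfIntegers.rank, mul_comm]

variable (ι) in
/-- **Lattice points of the region.** -/
theorem tendsto_tuples (J : (Ideal (𝓞 K))⁰) :
    Tendsto (fun T : ℝ => ((tuples ι (J : Ideal (𝓞 K)) T).ncard : ℝ) / T ^ Fintype.card ι) atTop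
      (𝓝 (schanuelVolume K ι / (Ideal.absNorm (J : Ideal (𝓞 K)) : ℝ) ^ Fintype.card ι)) := by
  set N : ℕ := Fintype.card ι with hN
  have hN0 : N ≠ 0 := Fintype.card_ne_zero
  set B := tupleBasis ι J with hB
  set L := Submodule.span ℤ (Set.range B)
  set X : Set (ι → mixedSpace K) := {v | profile v ∈ fundamentalCone K}
  set F : (ι → mixedSpace K) → ℝ := fun v => mixedEmbedding.norm (profile v) ^ N
  have hcard := card_sigma_index (ι := ι) J
  have : Nonempty (Σ _ : ι, Free.ChooseBasisIndex ℤ (fracIdeal J)) :=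
    Fintype.card_pos_iff.mp (by rw [hcard]; exact Nat.mul_pos finrank_pos Fintype.card_pos)
  have hFX : ∀ c : ℝ, 0 ≤ c → {v ∈ X | F v ≤ c ^ N} = region c := fun c hc => Set.ext fun v =>
    and_congr_right fun _ => pow_le_pow_iff_left₀ (mixedEmbedding.norm_nonneg _) hc hN0
  have h1set : {v ∈ X | F v ≤ 1} = region 1 := by simpa using hFX 1 zero_le_one
  have hbas : (B.restrictScalars ℤ).ofZLatticeBasis ℝ L = B := by
    refine Basis.eq_of_apply_eq fun i => ?_
    rw [Basis.ofZLatticeBasis_apply, Basis.restrictScalars_apply]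
  have hfd := volume_fundamentalDomain_tupleBasis (ι := ι) J
  have hpos : 0 < ((Ideal.absNorm (J : Ideal (𝓞 K)) : ℝ) * integerCovolume K) ^ N := by
    have := integerCovolume_pos (K := K)
    have : (0 : ℝ) < Ideal.absNorm (J : Ideal (𝓞 K)) :=
      Nat.cast_pos.mpr (Ideal.absNorm_pos_of_nonZeroDivisors J)
    positivity
  have hfr : volume (frontier (B.equivFun '' (region 1 : Set (ι → mixedSpace K)))) = 0 := by
    have h := volume_equivFun_image_mul (volume : Measure (ι → mixedSpace K)) B
      (frontier (region 1 : Set (ι → mixedSpace K)))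
    rw [volume_frontier_region_one, hfd, mul_eq_zero] at h
    rw [show frontier (B.equivFun '' (region 1 : Set (ι → mixedSpace K))) =
      B.equivFun '' frontier (region 1 : Set (ι → mixedSpace K)) from
      (B.equivFunL.toHomeomorph.image_frontier _).symm]
    exact h.resolve_right (ENNReal.ofReal_pos.mpr hpos).ne'
  have hlim := ZLattice.covolume.tendsto_card_le_div'' (B.restrictScalars ℤ) (L := L) (X := X)
    (fun v r hv hr => by
      show profile (r • v) ∈ fundamentalCone K
      rw [profile_smul]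
      exact smul_mem_of_mem hv (abs_ne_zero.mpr hr.ne'))
    (F := F) (fun v r hr => by
      show mixedEmbedding.norm (profile (r • v)) ^ N = _
      rw [norm_smul_profile hr, mul_pow, ← pow_mul, hcard])
    (h1set ▸ isBounded_region_one) (h1set ▸ measurableSet_region_one)
    (by rw [hbas, show {x | x ∈ X ∧ F x ≤ 1} = region 1 from h1set]; exact hfr)
  rw [hbas, h1set] at hlim
  have hval : volume.real (B.equivFun '' (region 1 : Set (ι → mixedSpace K))) =
      schanuelVolume K ι / (Ideal.absNorm (J : Ideal (𝓞 K)) : ℝ) ^ N := by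
    have h := congrArg ENNReal.toReal (volume_equivFun_image_mul
      (volume : Measure (ι → mixedSpace K)) B (region 1 : Set (ι → mixedSpace K)))
    rw [ENNReal.toReal_mul, hfd, ENNReal.toReal_ofReal hpos.le, ← measureReal_def,
      ← eq_div_iff hpos.ne'] at h
    rw [h, volume_region_one]
    simp only [ENNReal.toReal_mul, ENNReal.toReal_pow, ENNReal.coe_toReal, ENNReal.toReal_natCast,
      ENNReal.toReal_ofReal (Units.regulator_pos K).le, convexBodyLTFactor, NNReal.coe_mul,
      NNReal.coe_pow, NNReal.coe_ofNat, NNReal.coe_real_pi, schanuelVolume, integerCovolume,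
      ← hN, mul_pow, inv_pow, div_pow]
    field_simp
  rw [← hval]
  refine (hlim.comp (tendsto_pow_atTop hN0)).congr' ?_
  filter_upwards [eventually_ge_atTop (0 : ℝ)] with T hT
  simp only [Function.comp_apply]
  congr 2
  rw [hFX T hT, ← Set.ncard_image_of_injective _ intTuple_injective,
    ← Nat.card_coe_set_eq]
  congr 2
  ext v
  simp only [Set.mem_inter_iff, SetLike.mem_coe, L, hB, mem_span_tupleBasis_iff, Set.mem_image,
    tuples, Set.mem_ofPred_eq]
  constructor
  · rintro ⟨hv, x, hx, rfl⟩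
    exact ⟨x, ⟨hx, hv⟩, rfl⟩
  · rintro ⟨x, ⟨hx, hv⟩, rfl⟩
    exact ⟨hv, x, hx, rfl⟩

end FA.Schanuel
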