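import Fermat.Agent.Schanuel.LatticeCount
import Fermat.Agent.ExtVanish.Euler

/-!
# Tuples generating a given ideal

Inclusion and exclusion over a finite set of primes, with the remaining primes controlled by the
uniform bound, turns the count of lattice points into the count of tuples generating exactly `J`.
-/

set_option autoImplicit false
set_option linter.unusedSectionVars false

noncomputable section

open NumberField NumberField.InfinitePlace NumberField.mixedEmbedding Filter IsDedekindDomain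
open Module
open scoped Topology Classical nonZeroDivisors

namespace FA.Schanuel

variable {K : Type*} [Field K] [NumberField K] {ι : Type*} [Fintype ι] [Nonempty ι]

/-- Tuples generating exactly `J` lying in the region. -/
def exactTuples (ι : Type*) [Fintype ι] [Nonempty ι] (J : Ideal (𝓞 K)) (T : ℝ) :
    Set (ι → 𝓞 K) :=
  {x | Ideal.span (Set.range x) = J ∧ intTuple x ∈ region T}

/-- Tuples in `J`, lying in the region, none of whose multiples by primes in `S` contains them. -/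
def sievedTuples (ι : Type*) [Fintype ι] [Nonempty ι] (J : Ideal (𝓞 K))
    (S : Finset (HeightOneSpectrum (𝓞 K))) (T : ℝ) : Set (ι → 𝓞 K) :=
  {x ∈ tuples ι J T | ∀ P ∈ S, ¬ ∀ i, x i ∈ J * P.asIdeal}

theorem forall_mem_iff_dvd_span (I : Ideal (𝓞 K)) (x : ι → 𝓞 K) :
    (∀ i, x i ∈ I) ↔ I ∣ Ideal.span (Set.range x) := by
  rw [Ideal.dvd_iff_le, Ideal.span_le, Set.range_subset_iff]
  rfl

theorem forall_mem_mul_prod_iff {J : Ideal (𝓞 K)} (hJ : J ≠ 0)
    (U : Finset (HeightOneSpectrum (𝓞 K))) (x : ι → 𝓞 K) :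
    (∀ i, x i ∈ J * ∏ P ∈ U, P.asIdeal) ↔
      (∀ i, x i ∈ J) ∧ ∀ P ∈ U, ∀ i, x i ∈ J * P.asIdeal := by
  simp only [forall_mem_iff_dvd_span]
  constructor
  · intro h
    exact ⟨(dvd_mul_right J _).trans h,
      fun P hP => (mul_dvd_mul_left J (Finset.dvd_prod_of_mem _ hP)).trans h⟩
  · rintro ⟨⟨L, hL⟩, h⟩
    rw [hL]
    refine mul_dvd_mul_left J ?_
    have hinj : Set.InjOn (fun v : HeightOneSpectrum (𝓞 K) => v.asIdeal) U :=
      fun v _ w _ hvw => HeightOneSpectrum.ext hvw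
    rw [← Finset.prod_image (f := fun I : Ideal (𝓞 K) => I) hinj]
    refine Finset.prod_primes_dvd _ ?_ ?_
    · intro I hI
      obtain ⟨v, -, rfl⟩ := Finset.mem_image.mp hI
      exact v.prime
    · intro I hI
      obtain ⟨v, hv, rfl⟩ := Finset.mem_image.mp hI
      have := h v hv
      rwa [hL, mul_dvd_mul_iff_left hJ] at this

theorem prod_one_sub_eq {α : Type*} (S : Finset α) (f : α → ℝ) :
    ∏ a ∈ S, (1 - f a) = ∑ U ∈ S.powerset, (-1) ^ U.card * ∏ a ∈ U, f a := by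
  rw [Finset.prod_congr rfl fun a _ => show 1 - f a = (-1) * f a + 1 by ring, Finset.prod_add]
  exact Finset.sum_congr rfl fun U _ => by
    rw [Finset.prod_const_one, mul_one, Finset.prod_mul_distrib, Finset.prod_const]

theorem ncard_sievedTuples {J : Ideal (𝓞 K)} (hJ : J ≠ 0)
    (S : Finset (HeightOneSpectrum (𝓞 K))) (T : ℝ) :
    ((sievedTuples ι J S T).ncard : ℝ) = ∑ U ∈ S.powerset,
      (-1) ^ U.card * ((tuples ι (J * ∏ P ∈ U, P.asIdeal) T).ncard : ℝ) := by
  have hfin : (tuples ι J T).Finite := finite_tuples hJ T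
  set s := hfin.toFinset
  have hsub : ∀ U : Finset (HeightOneSpectrum (𝓞 K)),
      ((tuples ι (J * ∏ P ∈ U, P.asIdeal) T).ncard : ℝ) =
        ∑ x ∈ s, ∏ P ∈ U, (if ∀ i, x i ∈ J * P.asIdeal then (1 : ℝ) else 0) := by
    intro U
    simp only [Finset.prod_boole]
    rw [Finset.sum_boole, ← Set.ncard_coe_finset]
    refine congrArg (fun A : Set (ι → 𝓞 K) => (A.ncard : ℝ)) (Set.ext fun x => ?_)
    simp only [Finset.coe_filter, s, Set.Finite.mem_toFinset, Set.mem_ofPred_eq, tuples,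
      forall_mem_mul_prod_iff hJ]
    tauto
  have hmain : ((sievedTuples ι J S T).ncard : ℝ) =
      ∑ x ∈ s, ∏ P ∈ S, (1 - if ∀ i, x i ∈ J * P.asIdeal then (1 : ℝ) else 0) := by
    have : ∀ x : ι → 𝓞 K, ∏ P ∈ S, (1 - if ∀ i, x i ∈ J * P.asIdeal then (1 : ℝ) else 0) =
        if ∀ P ∈ S, ¬ ∀ i, x i ∈ J * P.asIdeal then 1 else 0 := fun x => by
      rw [← Finset.prod_boole]
      exact Finset.prod_congr rfl fun P _ => by split_ifs <;> simp_all
    simp only [this]
    rw [Finset.sum_boole, ← Set.ncard_coe_finset]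
    refine congrArg (fun A : Set (ι → 𝓞 K) => (A.ncard : ℝ)) (Set.ext fun x => ?_)
    simp only [Finset.coe_filter, s, Set.Finite.mem_toFinset, Set.mem_ofPred_eq, sievedTuples]
  simp only [hmain, prod_one_sub_eq, hsub, Finset.mul_sum]
  exact Finset.sum_comm

theorem exactTuples_subset_sieved {J : Ideal (𝓞 K)} (hJ : J ≠ 0)
    (S : Finset (HeightOneSpectrum (𝓞 K))) (T : ℝ) :
    exactTuples ι J T ⊆ sievedTuples ι J S T := by
  rintro x ⟨hx, hT⟩
  refine ⟨⟨(forall_mem_iff_dvd_span J x).mpr (hx ▸ dvd_rfl), hT⟩, fun P _ h => ?_⟩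
  rw [forall_mem_iff_dvd_span, hx] at h
  have h' : P.asIdeal ∣ 1 := by rwa [← mul_dvd_mul_iff_left hJ, mul_one]
  exact P.prime.not_isUnit (isUnit_of_dvd_one h')

theorem exists_prime_of_sieved {J : Ideal (𝓞 K)} {S : Finset (HeightOneSpectrum (𝓞 K))} {T : ℝ}
    {x : ι → 𝓞 K} (hx : x ∈ sievedTuples ι J S T) (hx' : x ∉ exactTuples ι J T) :
    ∃ P : HeightOneSpectrum (𝓞 K), P ∉ S ∧ x ∈ tuples ι (J * P.asIdeal) T := by
  obtain ⟨L, hL⟩ := (forall_mem_iff_dvd_span J x).mp hx.1.1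
  have hL1 : L ≠ ⊤ := fun h => hx' ⟨by rw [hL, h, ← Ideal.one_eq_top, mul_one], hx.1.2⟩
  obtain ⟨M, hM, hle⟩ := Ideal.exists_le_maximal L hL1
  have hM0 : M ≠ ⊥ := by
    intro h
    have : Ideal.span (Set.range x) = ⊥ := by
      rw [hL, le_bot_iff.mp (hle.trans h.le), Ideal.mul_bot]
    refine ne_zero_of_mem_region hx.1.2 (funext fun i => ?_)
    have hi : x i ∈ (⊥ : Ideal (𝓞 K)) := this ▸ Ideal.subset_span ⟨i, rfl⟩
    simp [intTuple, Ideal.mem_bot.mp hi]
  let P : HeightOneSpectrum (𝓞 K) := ⟨M, hM.isPrime, hM0⟩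
  have hmem : ∀ i, x i ∈ J * P.asIdeal := by
    rw [forall_mem_iff_dvd_span, hL]
    exact mul_dvd_mul_left J (Ideal.dvd_iff_le.mpr hle)
  exact ⟨P, fun hP => hx.2 P hP hmem, hmem, hx.1.2⟩

variable (K ι) in
/-- The weight of a prime in the sieve. -/
def primeWeight (P : HeightOneSpectrum (𝓞 K)) : ℝ :=
  (((Ideal.absNorm P.asIdeal : ℝ)) ^ Fintype.card ι)⁻¹

theorem primeWeight_eq_zN (P : HeightOneSpectrum (𝓞 K)) :
    primeWeight K ι P = FA.Ext.zN (Fintype.card ι : ℝ) (FA.Ext.primeIdeal P) := by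
  rw [FA.Ext.zN_primeIdeal, Real.rpow_neg (Nat.cast_nonneg _), Real.rpow_natCast]
  rfl

theorem primeWeight_nonneg (P : HeightOneSpectrum (𝓞 K)) : 0 ≤ primeWeight K ι P :=
  inv_nonneg.mpr (pow_nonneg (Nat.cast_nonneg _) _)

theorem summable_primeWeight (hN : 1 < Fintype.card ι) : Summable (primeWeight K ι) := by
  simp only [funext (primeWeight_eq_zN (K := K) (ι := ι))]
  exact (FA.Ext.summable_zN (by exact_mod_cast hN)).comp_injective
    fun v w h => HeightOneSpectrum.ext (congrArg Subtype.val h)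

variable (K ι) in
theorem exists_sieved_error (hN : 1 < Fintype.card ι) :
    ∃ κ : ℝ, 0 ≤ κ ∧ ∀ (J : Ideal (𝓞 K)), J ≠ 0 → ∀ (S : Finset (HeightOneSpectrum (𝓞 K))),
      ∀ T : ℝ, 0 ≤ T →
      |((exactTuples ι J T).ncard : ℝ) - (sievedTuples ι J S T).ncard| ≤
        κ * (T / Ideal.absNorm J) ^ Fintype.card ι *
          ∑' P : {P // P ∉ S}, primeWeight K ι P.1 := by
  obtain ⟨κ, hκ, hbound⟩ := exists_tuples_bound K ι
  refine ⟨κ, hκ, fun J hJ S T hT => ?_⟩
  have hsub := exactTuples_subset_sieved (ι := ι) hJ S T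
  have hfinS : (sievedTuples ι J S T).Finite :=
    (finite_tuples hJ T).subset fun x hx => hx.1
  have hfinE := hfinS.subset hsub
  rw [abs_sub_comm,
    abs_of_nonneg (sub_nonneg.mpr (Nat.cast_le.mpr (Set.ncard_le_ncard hsub hfinS))),
    ← Nat.cast_sub (Set.ncard_le_ncard hsub hfinS), ← Set.ncard_sdiff hsub hfinE]
  set D := hfinS.subset (Set.sdiff_subset (t := exactTuples ι J T)) with hD
  have hchoose : ∀ x ∈ D.toFinset, ∃ P : HeightOneSpectrum (𝓞 K),
      P ∉ S ∧ x ∈ tuples ι (J * P.asIdeal) T := fun x hx =>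
    exists_prime_of_sieved ((D.mem_toFinset).mp hx).1 ((D.mem_toFinset).mp hx).2
  choose P hPS hP using hchoose
  set Q := D.toFinset.attach.image fun x => P x.1 x.2
  have hne : ∀ P : HeightOneSpectrum (𝓞 K), J * P.asIdeal ≠ ⊥ := fun P =>
    mul_ne_zero hJ P.ne_bot
  have hcard : D.toFinset.card ≤ ∑ p ∈ Q, (tuples ι (J * p.asIdeal) T).ncard := by
    refine (Finset.card_le_card
      (t := Q.biUnion fun p => (finite_tuples (ι := ι) (hne p) T).toFinset)
      fun x hx => ?_).trans (Finset.card_biUnion_le.trans (le_of_eq ?_))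
    · exact Finset.mem_biUnion.mpr ⟨P x hx,
        Finset.mem_image.mpr ⟨⟨x, hx⟩, Finset.mem_attach _ _, rfl⟩,
        by simpa using hP x hx⟩
    · exact Finset.sum_congr rfl fun p _ =>
        (Set.ncard_eq_toFinset_card _ (finite_tuples (hne p) T)).symm
  rw [Set.ncard_eq_toFinset_card _ D]
  refine (Nat.cast_le.mpr hcard).trans ?_
  rw [Nat.cast_sum]
  refine (Finset.sum_le_sum fun p _ => (hbound _ (hne p) T).2 hT).trans ?_
  rw [Finset.sum_congr rfl fun p _ => show κ * (T / Ideal.absNorm (J * p.asIdeal)) ^ Fintype.card ι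
    = κ * (T / Ideal.absNorm J) ^ Fintype.card ι * primeWeight K ι p by
      rw [primeWeight, map_mul, Nat.cast_mul, ← div_div, div_pow, div_eq_mul_inv, mul_assoc],
    ← Finset.mul_sum]
  refine mul_le_mul_of_nonneg_left ?_ (by positivity)
  rw [← Finset.sum_subtype_of_mem (p := fun p => p ∉ S) (primeWeight K ι) fun p hp => by
    obtain ⟨x, -, rfl⟩ := Finset.mem_image.mp hp
    exact hPS x.1 x.2]
  exact ((summable_primeWeight hN).subtype _).sum_le_tsum _ fun p _ => primeWeight_nonneg p.1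

theorem tendsto_sieved (J : (Ideal (𝓞 K))⁰) (S : Finset (HeightOneSpectrum (𝓞 K))) :
    Tendsto (fun T : ℝ => ((sievedTuples ι (J : Ideal (𝓞 K)) S T).ncard : ℝ) /
        T ^ Fintype.card ι) atTop
      (𝓝 (schanuelVolume K ι / (Ideal.absNorm (J : Ideal (𝓞 K)) : ℝ) ^ Fintype.card ι *
        ∏ P ∈ S, (1 - primeWeight K ι P))) := by
  simp only [ncard_sievedTuples (nonZeroDivisors.coe_ne_zero J), Finset.sum_div, mul_div_assoc,
    prod_one_sub_eq, Finset.mul_sum]
  refine tendsto_finsetSum _ fun U _ => ?_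
  have h := (tendsto_tuples ι (J * ∏ P ∈ U, FA.Ext.primeIdeal P)).const_mul ((-1 : ℝ) ^ U.card)
  rw [Submonoid.coe_mul, Submonoid.coe_finsetProd, map_mul, map_prod, Nat.cast_mul, Nat.cast_prod]
    at h
  refine h.trans (le_of_eq (congrArg 𝓝 ?_))
  simp only [primeWeight, Finset.prod_inv_distrib, mul_pow, ← Finset.prod_pow, FA.Ext.primeIdeal]
  ring

variable (ι) in
/-- **Tuples generating a given ideal.** -/
theorem tendsto_exactTuples (hN : 1 < Fintype.card ι) (J : (Ideal (𝓞 K))⁰) :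
    Tendsto (fun T : ℝ => ((exactTuples ι (J : Ideal (𝓞 K)) T).ncard : ℝ) / T ^ Fintype.card ι)
      atTop (𝓝 (schanuelVolume K ι / (Ideal.absNorm (J : Ideal (𝓞 K)) : ℝ) ^ Fintype.card ι /
        FA.Ext.idealZeta K (Fintype.card ι))) := by
  set V : ℝ := schanuelVolume K ι / (Ideal.absNorm (J : Ideal (𝓞 K)) : ℝ) ^ Fintype.card ι
  obtain ⟨κ, hκ, herr⟩ := exists_sieved_error K ι hN
  set c : ℝ := κ / (Ideal.absNorm (J : Ideal (𝓞 K)) : ℝ) ^ Fintype.card ι with hc
  have h1 : (1 : ℝ) < Fintype.card ι := by exact_mod_cast hN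
  have hlimS : Tendsto (fun S : Finset (HeightOneSpectrum (𝓞 K)) =>
      V * ∏ P ∈ S, (1 - primeWeight K ι P)) atTop
      (𝓝 (V / FA.Ext.idealZeta K (Fintype.card ι))) := by
    have h := ((FA.Ext.tendsto_realEulerProduct K h1).inv₀
      (zero_lt_one.trans_le (FA.Ext.one_le_idealZeta h1)).ne').const_mul V
    refine h.congr fun S => ?_
    simp only [← Finset.prod_inv_distrib, inv_inv, primeWeight_eq_zN]
  have htail : Tendsto (fun S : Finset (HeightOneSpectrum (𝓞 K)) =>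
      c * ∑' P : {P // P ∉ S}, primeWeight K ι P.1) atTop (𝓝 0) := by
    simpa using (tendsto_tsum_compl_atTop_zero (primeWeight K ι)).const_mul c
  rw [Metric.tendsto_nhds]
  intro ε hε
  obtain ⟨S, hS1, hS2⟩ := ((Metric.tendsto_nhds.mp hlimS (ε / 3) (by positivity)).and
    (Metric.tendsto_nhds.mp htail (ε / 3) (by positivity))).exists
  filter_upwards [Metric.tendsto_nhds.mp (tendsto_sieved (ι := ι) J S) (ε / 3) (by positivity),
    eventually_gt_atTop (0 : ℝ)] with T hT hT0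
  rw [Real.dist_eq] at hS1 hS2 hT ⊢
  rw [sub_zero] at hS2
  have hd : |((exactTuples ι (J : Ideal (𝓞 K)) T).ncard : ℝ) / T ^ Fintype.card ι -
      ((sievedTuples ι (J : Ideal (𝓞 K)) S T).ncard : ℝ) / T ^ Fintype.card ι| ≤
      c * ∑' P : {P // P ∉ S}, primeWeight K ι P.1 := by
    rw [← sub_div, abs_div, abs_of_pos (pow_pos hT0 _), div_le_iff₀ (pow_pos hT0 _)]
    refine (herr _ (nonZeroDivisors.coe_ne_zero J) S T hT0.le).trans (le_of_eq ?_)
    rw [hc, div_pow]
    ring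
  have := abs_sub_le (((exactTuples ι (J : Ideal (𝓞 K)) T).ncard : ℝ) / T ^ Fintype.card ι)
    (((sievedTuples ι (J : Ideal (𝓞 K)) S T).ncard : ℝ) / T ^ Fintype.card ι)
    (V / FA.Ext.idealZeta K (Fintype.card ι))
  have := abs_sub_le (((sievedTuples ι (J : Ideal (𝓞 K)) S T).ncard : ℝ) / T ^ Fintype.card ι)
    (V * ∏ P ∈ S, (1 - primeWeight K ι P)) (V / FA.Ext.idealZeta K (Fintype.card ι))
  have := le_abs_self (c * ∑' P : {P // P ∉ S}, primeWeight K ι P.1)
  linarith

end FA.Schanuel
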