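import Mathlib.NumberTheory.NumberField.CanonicalEmbedding.NormLeOne

/-!
# The volume of Schanuel's region

For tuples in the mixed space, the profile records at each place the largest absolute value.
The law of the `N`-th power of the profile is proportional to the law of the absolute values of
a single vector, so the volume of the tuples whose profile lies in the fundamental cone with
norm at most one follows from the volume of `normLeOne`, the cone splitting into `N ^ r`
translates by units.
-/

set_option autoImplicit false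
set_option linter.unusedSectionVars false

noncomputable section

open NumberField NumberField.InfinitePlace NumberField.mixedEmbedding MeasureTheory Filter
open NumberField.mixedEmbedding.fundamentalCone Bornology
open NumberField.Units NumberField.Units.dirichletUnitTheorem
open scoped NNReal ENNReal Topology Classical

namespace FA.Schanuel

variable {K : Type*} [Field K] [NumberField K] {ι : Type*} [Fintype ι] [Nonempty ι]

/-- A set which only depends on the absolute values at the infinite places. -/
def IsPolar (A : Set (mixedSpace K)) : Prop :=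
  ∀ ⦃z z' : mixedSpace K⦄, normAtAllPlaces z = normAtAllPlaces z' → z ∈ A → z' ∈ A

theorem IsPolar.mixedSpaceOfRealSpace_mem_iff {A : Set (mixedSpace K)} (hA : IsPolar A)
    (z : mixedSpace K) : mixedSpaceOfRealSpace (normAtAllPlaces z) ∈ A ↔ z ∈ A :=
  ⟨fun h => hA (normAtAllPlaces_normAtAllPlaces z) h,
    fun h => hA (normAtAllPlaces_normAtAllPlaces z).symm h⟩

theorem isPolar_normLeOne : IsPolar (normLeOne K) := by
  intro z z' h hz
  rw [mem_normLeOne, ← normAtAllPlaces_mem_fundamentalCone_iff, ← norm_normAtAllPlaces] at hz ⊢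
  rwa [← h]

/-- Absolute values after multiplication by a unit. -/
theorem normAtPlace_unit_smul (u : (𝓞 K)ˣ) (z : mixedSpace K) (w : InfinitePlace K) :
    normAtPlace w (u • z) = w (u : K) * normAtPlace w z := by
  rw [unitSMul_smul, map_mul, normAtPlace_apply]

theorem IsPolar.unit_smul {A : Set (mixedSpace K)} (hA : IsPolar A) (u : (𝓞 K)ˣ) :
    IsPolar ((fun z : mixedSpace K => u • z) ⁻¹' A) := by
  intro z z' h hz
  refine hA (funext fun w => ?_) hz
  have hw : normAtPlace w z = normAtPlace w z' := congrFun h w
  simp only [normAtAllPlaces_apply, normAtPlace_unit_smul, hw]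

theorem exists_eq_mul_normAtAllPlaces (z : mixedSpace K) :
    ∃ a b : mixedSpace K, a * b = 1 ∧ (∀ w, normAtPlace w a = 1) ∧
      z = a * mixedSpaceOfRealSpace (normAtAllPlaces z) := by
  set a : mixedSpace K := (fun w => if z.1 w = 0 then 1 else z.1 w / ‖z.1 w‖,
    fun w => if z.2 w = 0 then 1 else z.2 w / (‖z.2 w‖ : ℂ)) with ha
  have h1 : ∀ w, ‖a.1 w‖ = 1 := fun w => by
    simp only [ha]
    split_ifs with h
    · simp
    · rw [norm_div, norm_norm, div_self (norm_ne_zero_iff.mpr h)]
  have h2 : ∀ w, ‖a.2 w‖ = 1 := fun w => by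
    simp only [ha]
    split_ifs with h
    · simp
    · rw [norm_div, Complex.norm_real, norm_norm, div_self (norm_ne_zero_iff.mpr h)]
  refine ⟨a, (fun w => (a.1 w)⁻¹, fun w => (a.2 w)⁻¹), ?_, fun w => ?_, ?_⟩
  · refine Prod.ext (funext fun w => mul_inv_cancel₀ ?_) (funext fun w => mul_inv_cancel₀ ?_)
    · exact norm_ne_zero_iff.mp (by rw [h1 w]; exact one_ne_zero)
    · exact norm_ne_zero_iff.mp (by rw [h2 w]; exact one_ne_zero)
  · obtain hw | hw := isReal_or_isComplex w
    · rw [normAtPlace_apply_of_isReal hw]; exact h1 _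
    · rw [normAtPlace_apply_of_isComplex hw]; exact h2 _
  · rw [mixedSpaceOfRealSpace_apply]
    refine Prod.ext (funext fun w => ?_) (funext fun w => ?_)
    · simp only [ha, Prod.fst_mul, Pi.mul_apply, normAtAllPlaces_apply,
        normAtPlace_apply_of_isReal w.2]
      split_ifs with h
      · simp [h]
      · rw [div_mul_cancel₀ _ (norm_ne_zero_iff.mpr h)]
    · simp only [ha, Prod.snd_mul, Pi.mul_apply, normAtAllPlaces_apply,
        normAtPlace_apply_of_isComplex w.2]
      split_ifs with h
      · simp [h]
      · rw [div_mul_cancel₀ _ (by simpa using h)]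

theorem IsPolar.frontier {A : Set (mixedSpace K)} (hA : IsPolar A) : IsPolar (frontier A) := by
  suffices ∀ z, z ∈ _root_.frontier A ↔
      mixedSpaceOfRealSpace (normAtAllPlaces z) ∈ _root_.frontier A by
    intro z z' h hz
    rw [this] at hz ⊢
    rwa [← h]
  intro z
  obtain ⟨a, b, hab, ha, hz⟩ := exists_eq_mul_normAtAllPlaces z
  let h : mixedSpace K ≃ₜ mixedSpace K :=
    { toFun := fun y => a * y
      invFun := fun y => b * y
      left_inv := fun y => by show b * (a * y) = y; rw [← mul_assoc, mul_comm b a, hab, one_mul]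
      right_inv := fun y => by show a * (b * y) = y; rw [← mul_assoc, hab, one_mul]
      continuous_toFun := by fun_prop
      continuous_invFun := by fun_prop }
  have hmap : ∀ y, normAtAllPlaces (a * y) = normAtAllPlaces y := fun y =>
    funext fun w => by simp only [normAtAllPlaces_apply, map_mul, ha w, one_mul]
  have hpre : h ⁻¹' A = A :=
    Set.ext fun y => ⟨fun hy => hA (hmap y) hy, fun hy => hA (hmap y).symm hy⟩
  have hfr : h ⁻¹' _root_.frontier A = _root_.frontier A := by rw [h.preimage_frontier, hpre]
  conv_rhs => rw [← hfr]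
  rw [Set.mem_preimage]
  show z ∈ _root_.frontier A ↔ a * mixedSpaceOfRealSpace (normAtAllPlaces z) ∈ _root_.frontier A
  rw [← hz]

/-- The open boxes of the mixed space. -/
theorem volume_box (s : realSpace K) (hs : ∀ w, 0 < s w) :
    volume {z : mixedSpace K | ∀ w, normAtPlace w z < s w} =
      convexBodyLTFactor K * ENNReal.ofReal (∏ w, s w ^ mult w) := by
  let f : InfinitePlace K → ℝ≥0 := fun w => ⟨s w, (hs w).le⟩
  have h : {z : mixedSpace K | ∀ w, normAtPlace w z < s w} = convexBodyLT K f := by
    ext z
    simp only [Set.mem_ofPred_eq, convexBodyLT, Set.mem_prod, Set.mem_pi, Set.mem_univ,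
      forall_true_left, mem_ball_zero_iff]
    refine ⟨fun h => ⟨fun w => ?_, fun w => ?_⟩, fun h w => ?_⟩
    · have := h w.1; rwa [normAtPlace_apply_of_isReal w.2] at this
    · have := h w.1; rwa [normAtPlace_apply_of_isComplex w.2] at this
    · obtain hw | hw := isReal_or_isComplex w
      · rw [normAtPlace_apply_of_isReal hw]; exact h.1 ⟨w, hw⟩
      · rw [normAtPlace_apply_of_isComplex hw]; exact h.2 ⟨w, hw⟩
  rw [h, convexBodyLT_volume, ENNReal.ofReal_prod_of_nonneg fun w _ => pow_nonneg (hs w).le _,
    ENNReal.ofNNReal_finsetProd]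
  congr 1
  refine Finset.prod_congr rfl fun w _ => ?_
  rw [ENNReal.coe_pow, ENNReal.ofReal_pow (hs w).le, ENNReal.ofReal_eq_coe_nnreal (hs w).le]
  rfl

/-- Measures on the space of absolute values are determined by the boxes. -/
theorem map_eq_smul {α : Type*} [MeasurableSpace α] {μ : Measure α} {f : α → realSpace K}
    (hf : Measurable f) (c : ℝ≥0∞) (hc : c ≠ ⊤) (h0 : ∀ a w, 0 ≤ f a w)
    (h : ∀ s : realSpace K, (∀ w, 0 < s w) →
      μ {a | ∀ w, f a w < s w} = c * volume {z : mixedSpace K | ∀ w, normAtPlace w z < s w}) :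
    μ.map f = c • (volume : Measure (mixedSpace K)).map normAtAllPlaces := by
  set C : Set (Set (realSpace K)) :=
    Set.pi Set.univ '' Set.pi Set.univ fun _ => Set.range Set.Iio with hC
  have hgen : (MeasurableSpace.pi : MeasurableSpace (realSpace K)) =
      MeasurableSpace.generateFrom C := by
    refine (generateFrom_eq_pi (fun _ => ?_) fun _ => ?_).symm
    · rw [← borel_eq_generateFrom_Iio ℝ]; exact BorelSpace.measurable_eq.symm
    · refine ⟨fun m : ℕ => Set.Iio (m : ℝ), fun m => ⟨_, rfl⟩, ?_⟩
      exact Set.eq_univ_of_forall fun x => Set.mem_iUnion.mpr ((exists_nat_gt x).imp fun _ h => h)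
  have key : ∀ s : realSpace K, μ.map f (Set.univ.pi fun w => Set.Iio (s w)) =
      (c • (volume : Measure (mixedSpace K)).map normAtAllPlaces)
        (Set.univ.pi fun w => Set.Iio (s w)) := by
    intro s
    have hm : MeasurableSet (Set.univ.pi fun w => Set.Iio (s w)) :=
      MeasurableSet.univ_pi fun w => measurableSet_Iio
    rw [Measure.map_apply hf hm, Measure.smul_apply,
      Measure.map_apply (continuous_normAtAllPlaces K).measurable hm, smul_eq_mul,
      show f ⁻¹' (Set.univ.pi fun w => Set.Iio (s w)) = {a | ∀ w, f a w < s w} from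
        Set.ext fun a => by simp [Set.mem_pi],
      show normAtAllPlaces ⁻¹' (Set.univ.pi fun w => Set.Iio (s w)) =
          {z : mixedSpace K | ∀ w, normAtPlace w z < s w} from
        Set.ext fun a => by simp [Set.mem_pi]]
    by_cases hs : ∀ w, 0 < s w
    · exact h s hs
    · push Not at hs
      obtain ⟨w, hw⟩ := hs
      rw [show {a | ∀ w, f a w < s w} = ∅ from Set.eq_empty_of_forall_notMem fun a ha =>
          ((h0 a w).trans_lt (ha w)).not_ge hw,
        show {z : mixedSpace K | ∀ w, normAtPlace w z < s w} = ∅ from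
          Set.eq_empty_of_forall_notMem fun z hz =>
            ((normAtPlace_nonneg w z).trans_lt (hz w)).not_ge hw]
      simp
  refine Measure.ext_of_generateFrom_of_iUnion C
    (fun m : ℕ => Set.univ.pi fun _ => Set.Iio ((m : ℝ) + 1)) hgen
    (IsPiSystem.pi fun _ => isPiSystem_Iio) ?_ (fun m => ?_) (fun m => ?_) ?_
  · refine Set.eq_univ_of_forall fun x => Set.mem_iUnion.mpr ?_
    obtain ⟨m, hm⟩ := exists_nat_gt (‖x‖)
    refine ⟨m, fun w _ => Set.mem_Iio.mpr ?_⟩
    linarith [le_abs_self (x w), norm_le_pi_norm x w, Real.norm_eq_abs (x w)]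
  · exact ⟨fun _ => Set.Iio ((m : ℝ) + 1), fun w _ => ⟨_, rfl⟩, rfl⟩
  · rw [key fun _ => (m : ℝ) + 1, Measure.smul_apply,
      Measure.map_apply (continuous_normAtAllPlaces K).measurable
        (MeasurableSet.univ_pi fun w => measurableSet_Iio), smul_eq_mul]
    refine ENNReal.mul_ne_top hc ?_
    rw [show normAtAllPlaces ⁻¹' (Set.univ.pi fun _ => Set.Iio ((m : ℝ) + 1)) =
        {z : mixedSpace K | ∀ w, normAtPlace w z < (fun _ => (m : ℝ) + 1 : realSpace K) w} from
      Set.ext fun a => by simp [Set.mem_pi], volume_box _ fun w => by positivity]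
    exact ENNReal.mul_ne_top ENNReal.coe_ne_top ENNReal.ofReal_ne_top
  · rintro _ ⟨t, ht, rfl⟩
    choose s hs using fun w => ht w (Set.mem_univ w)
    rw [show t = fun w => Set.Iio (s w) from funext fun w => (hs w).symm]
    exact key s

/-- Volume of the preimage of a polar set. -/
theorem measure_preimage_of_map_eq {α : Type*} [MeasurableSpace α] {μ : Measure α}
    {f : α → realSpace K} (hf : Measurable f) {c : ℝ≥0∞}
    (h : μ.map f = c • (volume : Measure (mixedSpace K)).map normAtAllPlaces)
    {A : Set (mixedSpace K)} (hA : IsPolar A) (hm : MeasurableSet A) :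
    μ ((fun a => mixedSpaceOfRealSpace (f a)) ⁻¹' A) = c * volume A := by
  have hm' : MeasurableSet (mixedSpaceOfRealSpace ⁻¹' A : Set (realSpace K)) :=
    hm.preimage (mixedSpaceOfRealSpace (K := K)).continuous.measurable
  rw [show ((fun a => mixedSpaceOfRealSpace (f a)) ⁻¹' A) =
      f ⁻¹' (mixedSpaceOfRealSpace ⁻¹' A) from rfl, ← Measure.map_apply hf hm', h,
    Measure.smul_apply, Measure.map_apply (continuous_normAtAllPlaces K).measurable hm',
    smul_eq_mul]
  congr 2
  exact Set.ext fun z => hA.mixedSpaceOfRealSpace_mem_iff z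

theorem place_unit_pos (u : (𝓞 K)ˣ) (w : InfinitePlace K) : 0 < w (u : K) :=
  w.pos_iff.mpr (Units.coe_ne_zero u)

theorem continuous_unit_smul (u : (𝓞 K)ˣ) : Continuous fun z : mixedSpace K => u • z := by
  simp only [unitSMul_smul]; fun_prop

/-- Multiplication by a unit preserves the volume of polar sets. -/
theorem volume_preimage_unit_smul {A : Set (mixedSpace K)} (hA : IsPolar A)
    (hm : MeasurableSet A) (u : (𝓞 K)ˣ) :
    volume ((fun z : mixedSpace K => u • z) ⁻¹' A) = volume A := by
  have hf : Measurable fun z : mixedSpace K => normAtAllPlaces (u • z) :=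
    ((continuous_normAtAllPlaces K).comp (continuous_unit_smul u)).measurable
  have hmap : (volume : Measure (mixedSpace K)).map (fun z => normAtAllPlaces (u • z)) =
      (1 : ℝ≥0∞) • (volume : Measure (mixedSpace K)).map normAtAllPlaces := by
    refine map_eq_smul hf 1 ENNReal.one_ne_top (fun z w => normAtPlace_nonneg _ _) fun s hs => ?_
    rw [one_mul, show {z : mixedSpace K | ∀ w, normAtAllPlaces (u • z) w < s w} =
        {z : mixedSpace K | ∀ w, normAtPlace w z < (fun w => s w / w (u : K) : realSpace K) w} from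
      Set.ext fun z => forall_congr' fun w => by
        rw [normAtAllPlaces_apply, normAtPlace_unit_smul, lt_div_iff₀ (place_unit_pos u w),
          mul_comm],
      volume_box _ fun w => div_pos (hs w) (place_unit_pos u w), volume_box _ hs]
    congr 2
    simp only [div_pow, Finset.prod_div_distrib]
    rw [prod_eq_abs_norm, Units.norm]
    simp
  rw [show ((fun z : mixedSpace K => u • z) ⁻¹' A) =
      (fun z => mixedSpaceOfRealSpace (normAtAllPlaces (u • z))) ⁻¹' A from
    Set.ext fun z => (hA.mixedSpaceOfRealSpace_mem_iff (u • z)).symm,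
    measure_preimage_of_map_eq hf hmap hA hm, one_mul]

/-- The largest absolute value of the coordinates at each place. -/
def placeSize (v : ι → mixedSpace K) : realSpace K :=
  fun w => Finset.univ.sup' Finset.univ_nonempty fun i => normAtPlace w (v i)

/-- The profile of a tuple, as an element of the mixed space. -/
def profile (v : ι → mixedSpace K) : mixedSpace K := mixedSpaceOfRealSpace (placeSize v)

/-- The `N`-th power of the profile. -/
def sizePow (v : ι → mixedSpace K) : realSpace K := fun w => placeSize v w ^ Fintype.card ι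

theorem normAtPlace_le_placeSize (v : ι → mixedSpace K) (w : InfinitePlace K) (i : ι) :
    normAtPlace w (v i) ≤ placeSize v w :=
  Finset.le_sup' (fun i => normAtPlace w (v i)) (Finset.mem_univ i)

theorem placeSize_nonneg (v : ι → mixedSpace K) (w : InfinitePlace K) : 0 ≤ placeSize v w :=
  (normAtPlace_nonneg w _).trans (normAtPlace_le_placeSize v w (Classical.arbitrary ι))

theorem continuous_placeSize : Continuous (placeSize : (ι → mixedSpace K) → realSpace K) :=
  continuous_pi fun w => Continuous.finset_sup'_apply _ fun i _ =>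
    (continuous_normAtPlace w).comp (continuous_apply i)

theorem continuous_profile : Continuous (profile : (ι → mixedSpace K) → mixedSpace K) :=
  (mixedSpaceOfRealSpace (K := K)).continuous.comp continuous_placeSize

theorem continuous_sizePow : Continuous (sizePow : (ι → mixedSpace K) → realSpace K) :=
  continuous_pi fun w => ((continuous_apply w).comp continuous_placeSize).pow _

theorem normAtPlace_profile (v : ι → mixedSpace K) (w : InfinitePlace K) :
    normAtPlace w (profile v) = placeSize v w :=
  normAtPlace_mixedSpaceOfRealSpace (placeSize_nonneg v w)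

theorem placeSize_smul (c : ℝ) (v : ι → mixedSpace K) :
    placeSize (c • v) = |c| • placeSize v := by
  funext w
  simp only [placeSize, Pi.smul_apply, normAtPlace_smul, smul_eq_mul]
  exact (Finset.mul₀_sup' (abs_nonneg c) _ _ _).symm

theorem profile_smul (c : ℝ) (v : ι → mixedSpace K) : profile (c • v) = |c| • profile v := by
  rw [profile, placeSize_smul, map_smul, profile]

theorem map_sizePow :
    (volume : Measure (ι → mixedSpace K)).map sizePow =
      ((convexBodyLTFactor K : ℝ≥0∞) ^ (Fintype.card ι - 1)) •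
        (volume : Measure (mixedSpace K)).map normAtAllPlaces := by
  have hN : Fintype.card ι ≠ 0 := Fintype.card_ne_zero
  refine map_eq_smul continuous_sizePow.measurable _ (ENNReal.pow_ne_top ENNReal.coe_ne_top)
    (fun v w => pow_nonneg (placeSize_nonneg v w) _) fun s hs => ?_
  set t : realSpace K := fun w => s w ^ ((Fintype.card ι : ℝ)⁻¹) with ht
  have ht0 : ∀ w, 0 < t w := fun w => Real.rpow_pos_of_pos (hs w) _
  have htp : ∀ w, t w ^ Fintype.card ι = s w := fun w => Real.rpow_inv_natCast_pow (hs w).le hN
  rw [show {v : ι → mixedSpace K | ∀ w, sizePow v w < s w} =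
      Set.univ.pi fun _ : ι => {z : mixedSpace K | ∀ w, normAtPlace w z < t w} from
    Set.ext fun v => by
      simp only [sizePow, Set.mem_ofPred_eq, Set.mem_pi, Set.mem_univ, forall_true_left]
      conv_rhs => rw [forall_comm]
      refine forall_congr' fun w => ?_
      rw [← htp w, pow_lt_pow_iff_left₀ (placeSize_nonneg v w) (ht0 w).le hN, placeSize,
        Finset.sup'_lt_iff]
      simp,
    volume_pi_pi, Finset.prod_const, Finset.card_univ, volume_box _ ht0, volume_box _ hs,
    mul_pow, ← ENNReal.ofReal_pow (Finset.prod_nonneg fun w _ => pow_nonneg (ht0 w).le _),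
    ← Finset.prod_pow, ← mul_assoc, ← pow_succ, Nat.sub_one_add_one hN]
  congr 2
  exact Finset.prod_congr rfl fun w _ => by rw [← pow_mul, mul_comm, pow_mul, htp w]

/-- The region: tuples whose profile lies in the fundamental cone, with norm at most `T`. -/
def region (T : ℝ) : Set (ι → mixedSpace K) :=
  {v | profile v ∈ fundamentalCone K ∧ mixedEmbedding.norm (profile v) ≤ T}

theorem region_one : (region 1 : Set (ι → mixedSpace K)) = profile ⁻¹' normLeOne K := rfl

theorem measurableSet_region_one : MeasurableSet (region 1 : Set (ι → mixedSpace K)) := by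
  rw [region_one]
  exact continuous_profile.measurable (measurableSet_normLeOne K)

variable (K) in
theorem exists_norm_le_of_mem_normLeOne :
    ∃ C : ℝ, 0 < C ∧ ∀ z ∈ normLeOne K, ‖z‖ ≤ C := by
  obtain ⟨C, hC⟩ := isBounded_iff_forall_norm_le.mp (isBounded_normLeOne K)
  exact ⟨max C 1, by positivity, fun z hz => (hC z hz).trans (le_max_left _ _)⟩

theorem norm_le_norm_profile (v : ι → mixedSpace K) : ‖v‖ ≤ ‖profile v‖ := by
  refine (pi_norm_le_iff_of_nonneg (norm_nonneg _)).mpr fun i => ?_
  rw [norm_eq_sup'_normAtPlace, norm_eq_sup'_normAtPlace]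
  refine Finset.sup'_le _ _ fun w hw => ?_
  exact ((normAtPlace_le_placeSize v w i).trans (normAtPlace_profile v w).ge).trans
    (Finset.le_sup' (fun w => normAtPlace w (profile v)) hw)

theorem isBounded_region_one : IsBounded (region 1 : Set (ι → mixedSpace K)) := by
  obtain ⟨C, -, hC⟩ := exists_norm_le_of_mem_normLeOne K
  exact isBounded_iff_forall_norm_le.mpr
    ⟨C, fun v hv => (norm_le_norm_profile v).trans (hC _ hv)⟩

variable (K) in
/-- The real basis of the log space given by the fundamental system of units. -/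
def logBasis : Module.Basis (Fin (rank K)) ℝ (logSpace K) :=
  (basisUnitLattice K).ofZLatticeBasis ℝ (unitLattice K)

theorem exists_shift_unit (k : Fin (rank K) → ℕ) :
    ∃ u : (𝓞 K)ˣ, ∀ (y : logSpace K) (i : Fin (rank K)),
      (logBasis K).repr (logEmbedding K (Additive.ofMul u) + y) i =
        (logBasis K).repr y i - k i := by
  obtain ⟨u, -, hu⟩ : ((-∑ i, (k i : ℤ) • basisUnitLattice K i : unitLattice K) : logSpace K) ∈
      unitLattice K := SetLike.coe_mem _
  refine ⟨Additive.toMul u, fun y i => ?_⟩
  have hv : logEmbedding K u =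
      ((-∑ j, (k j : ℤ) • basisUnitLattice K j : unitLattice K) : logSpace K) := hu
  have hb : ∀ j, ((basisUnitLattice K j : unitLattice K) : logSpace K) = logBasis K j := fun j =>
    ((basisUnitLattice K).ofZLatticeBasis_apply ℝ (unitLattice K) j).symm
  rw [ofMul_toMul, hv]
  push_cast
  simp only [hb, map_add, map_neg, map_sum, Finsupp.add_apply, Finsupp.neg_apply]
  rw [Finset.sum_congr rfl (g := fun j => ((k j : ℝ)) • (logBasis K).repr (logBasis K j))
    fun j _ => by rw [map_zsmul, Nat.cast_smul_eq_nsmul ℝ, natCast_zsmul],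
    Finsupp.finsetSum_apply]
  simp [Module.Basis.repr_self, Finsupp.single_apply]
  ring

/-- The chosen unit shifting the log coordinates by `-k`. -/
def shiftUnit (k : Fin (rank K) → ℕ) : (𝓞 K)ˣ := (exists_shift_unit k).choose

theorem unit_shift_mem_normLeOne_iff (k : Fin (rank K) → ℕ) (z : mixedSpace K) :
    shiftUnit k • z ∈ normLeOne K ↔ mixedEmbedding.norm z ≠ 0 ∧ mixedEmbedding.norm z ≤ 1 ∧
      ∀ i, (logBasis K).repr (logMap z) i - k i ∈ Set.Ico (0 : ℝ) 1 := by
  rw [mem_normLeOne, fundamentalCone, Set.mem_sdiff, Set.mem_preimage, Set.mem_ofPred_eq,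
    norm_unit_smul]
  constructor
  · rintro ⟨⟨h1, h2⟩, h3⟩
    refine ⟨h2, h3, fun i => ?_⟩
    rw [logMap_unit_smul _ h2] at h1
    rw [← (exists_shift_unit k).choose_spec (logMap z) i]
    exact (ZSpan.mem_fundamentalDomain _).mp h1 i
  · rintro ⟨h2, h3, h1⟩
    refine ⟨⟨?_, h2⟩, h3⟩
    rw [logMap_unit_smul _ h2, ZSpan.mem_fundamentalDomain]
    intro i
    exact ((exists_shift_unit k).choose_spec (logMap z) i).symm ▸ h1 i

variable (K) in
/-- The union of the translates of `normLeOne`. -/
def shiftUnion (N : ℕ) : Set (mixedSpace K) :=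
  ⋃ k : Fin (rank K) → Fin N, (fun z => shiftUnit (fun i => (k i : ℕ)) • z) ⁻¹' normLeOne K

theorem isPolar_shiftUnion (N : ℕ) : IsPolar (shiftUnion K N) := by
  intro z z' h hz
  obtain ⟨k, hk⟩ := Set.mem_iUnion.mp hz
  exact Set.mem_iUnion.mpr ⟨k, isPolar_normLeOne.unit_smul _ h hk⟩

theorem measurableSet_shiftUnion (N : ℕ) : MeasurableSet (shiftUnion K N) :=
  MeasurableSet.iUnion fun _ => (continuous_unit_smul _).measurable (measurableSet_normLeOne K)

theorem volume_shiftUnion (N : ℕ) :
    volume (shiftUnion K N) = (N : ℝ≥0∞) ^ rank K * volume (normLeOne K) := by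
  rw [shiftUnion, measure_iUnion ?_ fun k =>
    (continuous_unit_smul _).measurable (measurableSet_normLeOne K), tsum_fintype,
    Finset.sum_congr rfl fun k _ =>
      volume_preimage_unit_smul isPolar_normLeOne (measurableSet_normLeOne K) _,
    Finset.sum_const, nsmul_eq_mul, Finset.card_univ, Fintype.card_fun, Fintype.card_fin,
    Fintype.card_fin, Nat.cast_pow]
  intro k l hkl
  refine Set.disjoint_left.mpr fun z hk hl => hkl (funext fun i => Fin.ext ?_)
  rw [Set.mem_preimage, unit_shift_mem_normLeOne_iff] at hk hl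
  obtain ⟨h1, h2⟩ := hk.2.2 i
  obtain ⟨h3, h4⟩ := hl.2.2 i
  have a1 : ((k i : ℕ) : ℝ) < ((l i : ℕ) + 1 : ℕ) := by push_cast; linarith
  have a2 : ((l i : ℕ) : ℝ) < ((k i : ℕ) + 1 : ℕ) := by push_cast; linarith
  rw [Nat.cast_lt] at a1 a2
  omega

theorem profile_mem_normLeOne_iff (v : ι → mixedSpace K) :
    profile v ∈ normLeOne K ↔
      mixedSpaceOfRealSpace (sizePow v) ∈ shiftUnion K (Fintype.card ι) := by
  set N := Fintype.card ι with hN
  have hN0 : N ≠ 0 := Fintype.card_ne_zero
  have hN1 : (1 : ℝ) ≤ N := by exact_mod_cast Nat.one_le_iff_ne_zero.mpr hN0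
  set z := mixedSpaceOfRealSpace (sizePow v) with hz
  have hw : ∀ w, normAtPlace w z = normAtPlace w (profile v) ^ N := fun w => by
    rw [hz, normAtPlace_mixedSpaceOfRealSpace (x := sizePow v)
      (pow_nonneg (placeSize_nonneg v w) _), normAtPlace_profile]
    rfl
  have hn : mixedEmbedding.norm z = mixedEmbedding.norm (profile v) ^ N := by
    simp only [mixedEmbedding.norm_apply, hw, ← Finset.prod_pow, ← pow_mul, mul_comm]
  have hl : logMap z = (N : ℝ) • logMap (profile v) := by
    funext w
    simp only [logMap_apply, hw, hn, Real.log_pow, Pi.smul_apply, smul_eq_mul]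
    ring
  have hr : ∀ i, (logBasis K).repr (logMap z) i = N * (logBasis K).repr (logMap (profile v)) i :=
    fun i => by rw [hl, map_smul, Finsupp.smul_apply, smul_eq_mul]
  simp only [shiftUnion, Set.mem_iUnion, Set.mem_preimage, unit_shift_mem_normLeOne_iff, hn, hr,
    pow_ne_zero_iff hN0, pow_le_one_iff_of_nonneg (mixedEmbedding.norm_nonneg _) hN0]
  constructor
  · rintro ⟨⟨h1, h2⟩, h3⟩
    have h : ∀ i, (logBasis K).repr (logMap (profile v)) i ∈ Set.Ico (0 : ℝ) 1 :=
      (ZSpan.mem_fundamentalDomain _).mp (Set.mem_preimage.mp h1)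
    refine ⟨fun i => ⟨⌊(N : ℝ) * (logBasis K).repr (logMap (profile v)) i⌋₊, ?_⟩, h2, h3,
      fun i => ⟨?_, ?_⟩⟩
    · rw [Nat.floor_lt (mul_nonneg (by linarith) (h i).1)]
      have := (h i).2
      simp only [logBasis] at this ⊢
      nlinarith
    · exact sub_nonneg.mpr (Nat.floor_le (mul_nonneg (by linarith) (h i).1))
    · exact sub_lt_iff_lt_add'.mpr (Nat.lt_floor_add_one _)
  · rintro ⟨k, h2, h3, h⟩
    refine ⟨⟨Set.mem_preimage.mpr ((ZSpan.mem_fundamentalDomain _).mpr fun i => ?_), h2⟩, h3⟩
    obtain ⟨ha, hb⟩ := h i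
    have hk : ((k i : ℕ) : ℝ) + 1 ≤ N := by exact_mod_cast (k i).2
    have hk0 : (0 : ℝ) ≤ ((k i : ℕ) : ℝ) := Nat.cast_nonneg _
    simp only [logBasis] at ha hb
    constructor <;> nlinarith

variable (ι) in
/-- The volume of Schanuel's region. -/
theorem volume_region_one :
    volume (region 1 : Set (ι → mixedSpace K)) =
      (convexBodyLTFactor K : ℝ≥0∞) ^ Fintype.card ι *
        (Fintype.card ι : ℝ≥0∞) ^ rank K * ENNReal.ofReal (regulator K) := by
  rw [show (region 1 : Set (ι → mixedSpace K)) =
      (fun v => mixedSpaceOfRealSpace (sizePow v)) ⁻¹' shiftUnion K (Fintype.card ι) from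
    Set.ext profile_mem_normLeOne_iff,
    measure_preimage_of_map_eq continuous_sizePow.measurable map_sizePow (isPolar_shiftUnion _)
      (measurableSet_shiftUnion _), volume_shiftUnion, volume_normLeOne]
  conv_rhs => rw [← Nat.sub_one_add_one (Fintype.card_ne_zero : Fintype.card ι ≠ 0), pow_succ]
  simp only [convexBodyLTFactor, ENNReal.coe_mul, ENNReal.coe_pow, ENNReal.coe_ofNat]
  rw [Nat.sub_one_add_one (Fintype.card_ne_zero : Fintype.card ι ≠ 0)]
  ring

theorem volume_frontier_region_one :
    volume (frontier (region 1 : Set (ι → mixedSpace K))) = 0 := by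
  have hm : MeasurableSet (frontier (shiftUnion K (Fintype.card ι))) :=
    isClosed_frontier.measurableSet
  have hc : Continuous fun v : ι → mixedSpace K => mixedSpaceOfRealSpace (sizePow v) :=
    (mixedSpaceOfRealSpace (K := K)).continuous.comp continuous_sizePow
  refine measure_mono_null ?_ ((measure_preimage_of_map_eq continuous_sizePow.measurable
    (map_sizePow (ι := ι)) (isPolar_shiftUnion (Fintype.card ι)).frontier hm).trans ?_)
  · rw [show (region 1 : Set (ι → mixedSpace K)) =
      (fun v => mixedSpaceOfRealSpace (sizePow v)) ⁻¹' shiftUnion K (Fintype.card ι) from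
      Set.ext profile_mem_normLeOne_iff]
    exact hc.frontier_preimage_subset _
  have h0 : volume (frontier (shiftUnion K (Fintype.card ι))) = 0 := by
    rw [shiftUnion]
    have hsub : ∀ {α : Type} [Fintype α] (S : α → Set (mixedSpace K)),
        frontier (⋃ k, S k) ⊆ ⋃ k, frontier (S k) := by
      intro α _ S z hz
      rw [frontier, closure_iUnion_of_finite] at hz
      obtain ⟨⟨_, ⟨k, rfl⟩, hk⟩, hi⟩ := hz
      exact Set.mem_iUnion.mpr ⟨k, hk, fun h => hi (interior_mono (Set.subset_iUnion S k) h)⟩
    refine measure_mono_null (hsub _) (measure_iUnion_null fun k => ?_)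
    refine measure_mono_null ((continuous_unit_smul _).frontier_preimage_subset _) ?_
    rw [volume_preimage_unit_smul isPolar_normLeOne.frontier isClosed_frontier.measurableSet]
    exact volume_frontier_normLeOne K
  rw [h0, mul_zero]

end FA.Schanuel
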