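import Fermat.Agent.Schanuel.Primitive
import Mathlib.NumberTheory.Height.NumberField
import Mathlib.NumberTheory.Height.Projectivization

/-!
# Points of bounded height in projective space

A point of `ℙ(K ^ ι)` is a tuple of integers generating one of the chosen representatives of the
ideal classes, up to units; with the profile in the fundamental cone it is unique up to torsion.
-/

set_option autoImplicit false
set_option linter.unusedSectionVars false

noncomputable section

open NumberField NumberField.InfinitePlace NumberField.mixedEmbedding Filter Module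
open NumberField.mixedEmbedding.fundamentalCone
open scoped Topology Classical nonZeroDivisors

namespace FA.Schanuel

variable {K : Type*} [Field K] [NumberField K] {ι : Type*} [Fintype ι] [Nonempty ι]

/-- A tuple of integers in `K`. -/
def toField (x : ι → 𝓞 K) : ι → K := fun i => (x i : K)

theorem toField_ne_zero {x : ι → 𝓞 K} (hx : x ≠ 0) : toField x ≠ 0 := by
  obtain ⟨i, hi⟩ := Function.ne_iff.mp hx
  exact Function.ne_iff.mpr ⟨i, RingOfIntegers.coe_ne_zero_iff.mpr hi⟩

theorem ne_zero_of_exact {J : Ideal (𝓞 K)} {T : ℝ} {x : ι → 𝓞 K}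
    (hx : x ∈ exactTuples ι J T) : x ≠ 0 := fun h =>
  ne_zero_of_mem_region hx.2 (by subst h; funext i; simp [intTuple])

theorem placeSize_intTuple (x : ι → 𝓞 K) (w : InfinitePlace K) :
    placeSize (intTuple x) w = ⨆ i, w (x i : K) := by
  rw [placeSize, Finset.sup'_univ_eq_ciSup]
  simp [intTuple, normAtPlace_apply]

/-- The height times the norm of the ideal generated is the norm of the profile. -/
theorem mulHeight_mul_absNorm {x : ι → 𝓞 K} (hx : x ≠ 0) :
    Height.mulHeight (toField x) * Ideal.absNorm (Ideal.span (Set.range x)) =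
      mixedEmbedding.norm (profile (intTuple x)) := by
  have h1 : mixedEmbedding.norm (profile (intTuple x)) =
      ∏ w : InfinitePlace K, (⨆ i, w (toField x i)) ^ w.mult := by
    simp only [mixedEmbedding.norm_apply, normAtPlace_profile, placeSize_intTuple, toField]
  rw [NumberField.mulHeight_eq (toField_ne_zero hx), h1, mul_assoc, mul_comm (∏ᶠ _, _)]
  simp only [toField]
  rw [NumberField.absNorm_mul_finprod_finitePlace_eq_one hx, mul_one]

theorem span_range_mul (a : 𝓞 K) (x : ι → 𝓞 K) :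
    Ideal.span (Set.range fun i => a * x i) = Ideal.span {a} * Ideal.span (Set.range x) := by
  rw [Ideal.span_mul_span', Set.singleton_mul, ← Set.range_comp]
  rfl

theorem normAtPlace_profile_unit_mul (u : (𝓞 K)ˣ) (x : ι → 𝓞 K) (w : InfinitePlace K) :
    normAtPlace w (profile (intTuple fun i => (u : 𝓞 K) * x i)) =
      normAtPlace w (u • profile (intTuple x)) := by
  rw [normAtPlace_unit_smul, normAtPlace_profile, normAtPlace_profile, placeSize_intTuple,
    placeSize_intTuple, Real.mul_iSup_of_nonneg (apply_nonneg _ _)]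
  simp

theorem unit_mul_mem_exactTuples_iff {J : Ideal (𝓞 K)} {T : ℝ} (u : (𝓞 K)ˣ) (x : ι → 𝓞 K) :
    (fun i => (u : 𝓞 K) * x i) ∈ exactTuples ι J T ↔
      Ideal.span (Set.range x) = J ∧ u • profile (intTuple x) ∈ fundamentalCone K ∧
        mixedEmbedding.norm (profile (intTuple x)) ≤ T := by
  have h := normAtPlace_profile_unit_mul u x
  simp only [exactTuples, region, Set.mem_ofPred_eq, span_range_mul,
    Ideal.span_singleton_eq_top.mpr u.isUnit, Ideal.top_mul,
    mixedEmbedding.norm_eq_of_normAtPlace_eq h, norm_unit_smul]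
  exact and_congr_right fun _ => and_congr_left fun _ =>
    ⟨fun hm => mem_of_normAtPlace_eq hm fun w => (h w).symm,
      fun hm => mem_of_normAtPlace_eq hm h⟩

theorem torsion_mul_mem_exactTuples {J : Ideal (𝓞 K)} {T : ℝ} {x : ι → 𝓞 K}
    (hx : x ∈ exactTuples ι J T) (ζ : Units.torsion K) :
    (fun i => ((ζ : (𝓞 K)ˣ) : 𝓞 K) * x i) ∈ exactTuples ι J T :=
  (unit_mul_mem_exactTuples_iff _ x).mpr
    ⟨hx.1, torsion_smul_mem_of_mem hx.2.1 ζ.2, hx.2.2⟩

/-- The point of projective space given by a nonzero tuple of integers. -/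
def point (x : ι → 𝓞 K) (hx : x ≠ 0) : Projectivization K (ι → K) :=
  Projectivization.mk K (toField x) (toField_ne_zero hx)

theorem mulHeight_point_le_iff {J : Ideal (𝓞 K)} (hJ : J ≠ 0) {X : ℝ} {x : ι → 𝓞 K} (hx : x ≠ 0)
    (hspan : Ideal.span (Set.range x) = J) :
    (point x hx).mulHeight ≤ X ↔
      mixedEmbedding.norm (profile (intTuple x)) ≤ X * Ideal.absNorm J := by
  rw [← mulHeight_mul_absNorm hx, hspan, point, Projectivization.mulHeight_mk]
  refine (mul_le_mul_iff_left₀ ?_).symm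
  exact Nat.cast_pos.mpr (Nat.pos_of_ne_zero fun h => hJ (Ideal.absNorm_eq_zero_iff.mp h))

/-- Every point has a representative generating some chosen class representative, in the cone. -/
theorem exists_rep (J : ClassGroup (𝓞 K) → (Ideal (𝓞 K))⁰) (hJ : ∀ C, ClassGroup.mk0 (J C) = C)
    {X : ℝ} (P : Projectivization K (ι → K)) (hP : P.mulHeight ≤ X) :
    ∃ (C : ClassGroup (𝓞 K)) (x : ι → 𝓞 K)
      (hx : x ∈ exactTuples ι (J C : Ideal (𝓞 K)) (X * Ideal.absNorm (J C : Ideal (𝓞 K)))),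
      point x (ne_zero_of_exact hx) = P := by
  obtain ⟨b, hb⟩ := IsLocalization.exist_integer_multiples_of_finite (𝓞 K)⁰ P.rep
  choose z hz using hb
  have hz' : ∀ i, algebraMap (𝓞 K) K (z i) = algebraMap (𝓞 K) K b * P.rep i := fun i => by
    rw [← Algebra.smul_def]; exact hz i
  have hb0 : algebraMap (𝓞 K) K b ≠ 0 :=
    IsFractionRing.to_map_ne_zero_of_mem_nonZeroDivisors b.2
  have hz0 : z ≠ 0 := by
    obtain ⟨i, hi⟩ := Function.ne_iff.mp P.rep_nonzero
    intro h
    have := hz' i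
    rw [h, Pi.zero_apply, map_zero] at this
    exact mul_ne_zero hb0 hi this.symm
  have hL : Ideal.span (Set.range z) ≠ 0 := by
    obtain ⟨i, hi⟩ := Function.ne_iff.mp hz0
    intro h
    have hmem : z i ∈ Ideal.span (Set.range z) := Ideal.subset_span ⟨i, rfl⟩
    exact hi (by simpa [h] using hmem)
  set L : (Ideal (𝓞 K))⁰ := ⟨_, mem_nonZeroDivisors_iff_ne_zero.mpr hL⟩
  set C := ClassGroup.mk0 L
  obtain ⟨a, c, ha, hc, hac⟩ := ClassGroup.mk0_eq_mk0_iff.mp (hJ C).symm
  have hdiv : ∀ i, ∃ y, a * z i = c * y := fun i => by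
    have : a * z i ∈ Ideal.span {c} := by
      refine (Ideal.mul_le_inf (I := Ideal.span {c}) (J := (J C : Ideal (𝓞 K))) ?_).1
      rw [← hac]
      exact Ideal.mul_mem_mul (Ideal.mem_span_singleton_self a) (Ideal.subset_span ⟨i, rfl⟩)
    exact Ideal.mem_span_singleton.mp this
  choose y hy using hdiv
  have hspan : Ideal.span (Set.range y) = (J C : Ideal (𝓞 K)) := by
    refine mul_left_cancel₀ (a := Ideal.span {c}) (by simpa using hc) ?_
    rw [← span_range_mul, ← hac]
    simp only [← hy]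
    rw [span_range_mul]
  have hy0 : y ≠ 0 := by
    intro h
    refine nonZeroDivisors.coe_ne_zero (J C) ?_
    rw [← hspan, h]
    exact Ideal.span_eq_bot.mpr fun _ ⟨i, hi⟩ => hi.symm
  have hnorm : mixedEmbedding.norm (profile (intTuple y)) ≠ 0 := by
    rw [← mulHeight_mul_absNorm hy0, hspan]
    exact mul_ne_zero (zero_lt_one.trans_le (Height.one_le_mulHeight _)).ne'
      (Nat.cast_ne_zero.mpr (Ideal.absNorm_pos_of_nonZeroDivisors (J C)).ne')
  obtain ⟨u, hu⟩ := exists_unit_smul_mem hnorm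
  have hpt : point y hy0 = P := by
    rw [← P.mk_rep, point, Projectivization.mk_eq_mk_iff']
    refine ⟨algebraMap (𝓞 K) K a * algebraMap (𝓞 K) K b / algebraMap (𝓞 K) K c, funext fun i => ?_⟩
    have h := congrArg (algebraMap (𝓞 K) K) (hy i)
    rw [map_mul, map_mul, hz' i] at h
    have hc' : algebraMap (𝓞 K) K c ≠ 0 := by simpa using hc
    rw [Pi.smul_apply, smul_eq_mul, toField, div_mul_eq_mul_div, mul_assoc, h,
      mul_div_cancel_left₀ _ hc']
  have hmem : (fun i => (u : 𝓞 K) * y i) ∈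
      exactTuples ι (J C : Ideal (𝓞 K)) (X * Ideal.absNorm (J C : Ideal (𝓞 K))) :=
    (unit_mul_mem_exactTuples_iff u y).mpr ⟨hspan, hu,
      (mulHeight_point_le_iff (nonZeroDivisors.coe_ne_zero (J C)) hy0 hspan).mp (hpt ▸ hP)⟩
  refine ⟨C, _, hmem, ?_⟩
  rw [← hpt, point, point, Projectivization.mk_eq_mk_iff']
  exact ⟨((u : 𝓞 K) : K), funext fun i => by simp [toField]⟩

/-- Two representatives of a point lie over the same class and differ by a torsion unit. -/
theorem rep_unique (J : ClassGroup (𝓞 K) → (Ideal (𝓞 K))⁰) (hJ : ∀ C, ClassGroup.mk0 (J C) = C)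
    {T T' : ℝ} {C C' : ClassGroup (𝓞 K)} {x x' : ι → 𝓞 K}
    (hx : x ∈ exactTuples ι (J C : Ideal (𝓞 K)) T)
    (hx' : x' ∈ exactTuples ι (J C' : Ideal (𝓞 K)) T')
    (h : point x (ne_zero_of_exact hx) = point x' (ne_zero_of_exact hx')) :
    C = C' ∧ ∃ ζ : Units.torsion K, x = fun i => ((ζ : (𝓞 K)ˣ) : 𝓞 K) * x' i := by
  rw [point, point, Projectivization.mk_eq_mk_iff'] at h
  obtain ⟨t, ht⟩ := h
  obtain ⟨p, q, hq, hpq⟩ := IsFractionRing.div_surjective (A := 𝓞 K) t
  have hq' : algebraMap (𝓞 K) K q ≠ 0 := IsFractionRing.to_map_ne_zero_of_mem_nonZeroDivisors hq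
  have hmul : ∀ i, q * x i = p * x' i := fun i => by
    refine IsFractionRing.injective (𝓞 K) K ?_
    rw [map_mul, map_mul]
    have hi : t * (x' i : K) = (x i : K) := congrFun ht i
    rw [← hpq, div_mul_eq_mul_div, div_eq_iff hq'] at hi
    rw [hi, mul_comm]
  have hq0 : q ≠ 0 := nonZeroDivisors.ne_zero hq
  have hp0 : p ≠ 0 := by
    rintro rfl
    refine ne_zero_of_exact hx (funext fun i => ?_)
    simpa [hq0] using hmul i
  have hspan : Ideal.span {q} * (J C : Ideal (𝓞 K)) = Ideal.span {p} * (J C' : Ideal (𝓞 K)) := by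
    rw [← hx.1, ← hx'.1, ← span_range_mul, ← span_range_mul]
    simp only [hmul]
  have hCC : C = C' := by
    rw [← hJ C, ← hJ C']
    exact ClassGroup.mk0_eq_mk0_iff.mpr ⟨q, p, hq0, hp0, hspan⟩
  subst hCC
  obtain ⟨u, hu⟩ := Ideal.span_singleton_eq_span_singleton.mp
    (mul_right_cancel₀ (nonZeroDivisors.coe_ne_zero (J C)) hspan)
  have hxu : x = fun i => (u : 𝓞 K) * x' i := funext fun i => by
    refine mul_left_cancel₀ hq0 ?_
    rw [hmul i, ← hu, mul_assoc]
  have htor : u ∈ Units.torsion K :=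
    (unit_smul_mem_iff_mem_torsion hx'.2.1 u).mp
      ((unit_mul_mem_exactTuples_iff u x').mp (hxu ▸ hx)).2.1
  exact ⟨rfl, ⟨u, htor⟩, hxu⟩

theorem eq_one_of_mul_eq {x : ι → 𝓞 K} (hx : x ≠ 0) {u v : (𝓞 K)ˣ}
    (h : (fun i => (u : 𝓞 K) * x i) = fun i => (v : 𝓞 K) * x i) : u = v := by
  obtain ⟨i, hi⟩ := Function.ne_iff.mp hx
  exact Units.ext (mul_right_cancel₀ hi (congrFun h i))

variable (ι) in
/-- **Counting points by tuples.** -/
theorem finite_and_card_points (J : ClassGroup (𝓞 K) → (Ideal (𝓞 K))⁰)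
    (hJ : ∀ C, ClassGroup.mk0 (J C) = C) (X : ℝ) :
    Finite {P : Projectivization K (ι → K) // P.mulHeight ≤ X} ∧
      Nat.card {P : Projectivization K (ι → K) // P.mulHeight ≤ X} * Units.torsionOrder K =
        ∑ C, (exactTuples ι (J C : Ideal (𝓞 K))
          (X * Ideal.absNorm (J C : Ideal (𝓞 K)))).ncard := by
  set A := Σ C, exactTuples ι (J C : Ideal (𝓞 K)) (X * Ideal.absNorm (J C : Ideal (𝓞 K)))
  set S := {P : Projectivization K (ι → K) // P.mulHeight ≤ X}
  choose C₀ x₀ hx₀ hpt using fun P : S => exists_rep J hJ P.1 P.2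
  let g : S × Units.torsion K → A := fun Pζ =>
    ⟨C₀ Pζ.1, _, torsion_mul_mem_exactTuples (hx₀ Pζ.1) Pζ.2⟩
  let f : A → S := fun a => ⟨point a.2.1 (ne_zero_of_exact a.2.2),
    (mulHeight_point_le_iff (nonZeroDivisors.coe_ne_zero _) _ a.2.2.1).mpr a.2.2.2.2⟩
  have hfg : ∀ Pζ, f (g Pζ) = Pζ.1 := fun Pζ => by
    refine Subtype.ext (((Projectivization.mk_eq_mk_iff' K _ _ _ _).mpr
      ⟨(((Pζ.2 : (𝓞 K)ˣ) : 𝓞 K) : K), funext fun i => ?_⟩).trans (hpt Pζ.1))
    simp [toField, g]
  have hg : Function.Bijective g := by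
    constructor
    · rintro ⟨P, ζ⟩ ⟨P', ζ'⟩ h
      obtain rfl : P = P' := by simpa [hfg] using congrArg f h
      have h2 := eq_of_heq (Sigma.mk.inj_iff.mp h).2
      rw [Subtype.ext_iff] at h2
      exact Prod.ext rfl (Subtype.ext (eq_one_of_mul_eq (ne_zero_of_exact (hx₀ P)) h2))
    · rintro ⟨C, x, hx⟩
      obtain ⟨hC, ζ, hζ⟩ := rep_unique J hJ hx (hx₀ (f ⟨C, x, hx⟩))
        ((hpt (f ⟨C, x, hx⟩)).symm)
      refine ⟨(f ⟨C, x, hx⟩, ζ), ?_⟩
      exact Sigma.subtype_ext hC.symm hζ.symm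
  have hfinA : ∀ C, Finite (exactTuples ι (J C : Ideal (𝓞 K))
      (X * Ideal.absNorm (J C : Ideal (𝓞 K)))) := fun C =>
    ((finite_tuples (nonZeroDivisors.coe_ne_zero (J C)) _).subset
      fun x hx =>
        (exactTuples_subset_sieved (nonZeroDivisors.coe_ne_zero (J C)) ∅ _ hx).1).to_subtype
  have hS : Finite S := Finite.of_surjective f fun P => ⟨g (P, 1), hfg (P, 1)⟩
  refine ⟨hS, ?_⟩
  calc Nat.card S * Units.torsionOrder K = Nat.card (S × Units.torsion K) := by
        rw [Nat.card_prod]; rfl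
    _ = Nat.card A := Nat.card_eq_of_bijective g hg
    _ = _ := by rw [Nat.card_sigma]; exact Finset.sum_congr rfl fun C _ => Nat.card_coe_set_eq _

variable (K ι) in
/-- **Schanuel's theorem.** -/
theorem tendsto_card_points (hN : 1 < Fintype.card ι) :
    Tendsto (fun X : ℝ =>
        (Nat.card {P : Projectivization K (ι → K) // P.mulHeight ≤ X} : ℝ) / X ^ Fintype.card ι)
      atTop (𝓝 (classNumber K * schanuelVolume K ι /
        (Units.torsionOrder K * FA.Ext.idealZeta K (Fintype.card ι)))) := by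
  choose J hJ using fun C : ClassGroup (𝓞 K) => ClassGroup.mk0_surjective C
  set N := Fintype.card ι
  have hterm : ∀ C, Tendsto (fun X : ℝ => ((exactTuples ι (J C : Ideal (𝓞 K))
      (X * Ideal.absNorm (J C : Ideal (𝓞 K)))).ncard : ℝ) / X ^ N) atTop
      (𝓝 (schanuelVolume K ι / FA.Ext.idealZeta K N)) := fun C => by
    have hn : (0 : ℝ) < Ideal.absNorm (J C : Ideal (𝓞 K)) :=
      Nat.cast_pos.mpr (Ideal.absNorm_pos_of_nonZeroDivisors (J C))
    have h := ((tendsto_exactTuples ι hN (J C)).comp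
      (tendsto_id.atTop_mul_const hn)).mul_const ((Ideal.absNorm (J C : Ideal (𝓞 K)) : ℝ) ^ N)
    rw [div_right_comm, div_mul_cancel₀ _ (pow_ne_zero N hn.ne')] at h
    refine h.congr fun X => ?_
    simp only [Function.comp_apply, id_eq]
    rw [mul_pow, ← div_div, div_mul_cancel₀ _ (pow_ne_zero N hn.ne')]
  have hw : (Units.torsionOrder K : ℝ) ≠ 0 := Nat.cast_ne_zero.mpr (Units.torsionOrder_ne_zero K)
  have h := (tendsto_finsetSum Finset.univ fun C _ => hterm C).div_const (Units.torsionOrder K : ℝ)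
  rw [Finset.sum_const, Finset.card_univ, nsmul_eq_mul] at h
  refine (h.congr fun X => ?_).trans (le_of_eq (congrArg 𝓝 ?_))
  · rw [← Finset.sum_div, ← Nat.cast_sum, ← (finite_and_card_points ι J hJ X).2, Nat.cast_mul]
    field_simp
  · rw [classNumber, mul_div_assoc', div_div, mul_comm (FA.Ext.idealZeta K N)]

end FA.Schanuel
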